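import Fermat.Agent.S36.TH.J
import Fermat.Agent.S18.XSer

set_option autoImplicit false

/-!
# S36 / TH / X : `(θ x₃)⁶ = x₃³ (x₃ + 27)⁴ Δ`, `(θ x₂)⁶ = x₂⁴ (x₂ + 64)³ Δ` in `A((Q))`
-/

open ModularCurve Fermat.Agent.S18

noncomputable section

namespace Fermat.Agent.S36.TH

/-! ### algebra -/

theorem x3_abs {L : Type*} [Field L] (x j d tx tj : L) (h1 : (x + 27) * (x + 243) ^ 3 = j * x ^ 3)
    (h2 : tx * (x + 243) ^ 3 + (x + 27) * (3 * (x + 243) ^ 2 * tx) =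
      tj * x ^ 3 + j * (3 * x ^ 2 * tx))
    (h3 : tj ^ 6 = j ^ 4 * (j - 1728) ^ 3 * d) (n1 : x + 243 ≠ 0)
    (n2 : x * x + (-486) * x + (-19683) ≠ 0) :
    tx ^ 6 = x ^ 3 * (x + 27) ^ 4 * d := by
  have a1 : tj * x ^ 4 = tx * (x + 243) ^ 2 * (x * x + (-486) * x + (-19683)) := by
    linear_combination (-x) * h2 + (3 * tx) * h1
  have a2 : (j - 1728) * x ^ 3 = (x * x + (-486) * x + (-19683)) ^ 2 := by
    linear_combination -h1
  have a3 : tx ^ 6 * ((x + 243) ^ 12 * (x * x + (-486) * x + (-19683)) ^ 6) =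
      (x ^ 3 * (x + 27) ^ 4 * d) * ((x + 243) ^ 12 * (x * x + (-486) * x + (-19683)) ^ 6) := by
    have b1 : tx ^ 6 * ((x + 243) ^ 12 * (x * x + (-486) * x + (-19683)) ^ 6) =
        (tx * (x + 243) ^ 2 * (x * x + (-486) * x + (-19683))) ^ 6 := by ring
    have b2 : (tj * x ^ 4) ^ 6 = (j * x ^ 3) ^ 4 * ((j - 1728) * x ^ 3) ^ 3 * (x ^ 3 * d) := by
      rw [mul_pow, h3]
      ring
    rw [b1, ← a1, b2, ← h1, a2]
    ring
  exact mul_right_cancel₀ (mul_ne_zero (pow_ne_zero _ n1) (pow_ne_zero _ n2)) a3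

theorem x2_abs {L : Type*} [Field L] (x j d tx tj : L) (h1 : (x + 256) ^ 3 = j * x ^ 2)
    (h2 : 3 * (x + 256) ^ 2 * tx = tj * x ^ 2 + j * (2 * x * tx))
    (h3 : tj ^ 6 = j ^ 4 * (j - 1728) ^ 3 * d) (n1 : x + 256 ≠ 0) (n2 : x + (-512) ≠ 0) :
    tx ^ 6 = x ^ 4 * (x + 64) ^ 3 * d := by
  have a1 : tj * x ^ 3 = tx * (x + 256) ^ 2 * (x + (-512)) := by
    linear_combination (-x) * h2 + (2 * tx) * h1
  have a2 : (j - 1728) * x ^ 2 = (x + 64) * (x + (-512)) ^ 2 := by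
    linear_combination -h1
  have a3 : tx ^ 6 * ((x + 256) ^ 12 * (x + (-512)) ^ 6) =
      (x ^ 4 * (x + 64) ^ 3 * d) * ((x + 256) ^ 12 * (x + (-512)) ^ 6) := by
    have b1 : tx ^ 6 * ((x + 256) ^ 12 * (x + (-512)) ^ 6) =
        (tx * (x + 256) ^ 2 * (x + (-512))) ^ 6 := by ring
    have b2 : (tj * x ^ 3) ^ 6 = (j * x ^ 2) ^ 4 * ((j - 1728) * x ^ 2) ^ 3 * (x ^ 4 * d) := by
      rw [mul_pow, h3]
      ring
    rw [b1, ← a1, b2, ← h1, a2]
    ring
  exact mul_right_cancel₀ (mul_ne_zero (pow_ne_zero _ n1) (pow_ne_zero _ n2)) a3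

/-! ### non-vanishing -/

theorem x_lin_ne (x : LaurentSeries ℚ) (ho : x.order = -1) (hl : x.leadingCoeff = 1) (c : ℚ) :
    x + HahnSeries.C c ≠ 0 := by
  intro h
  have h1 := congrArg (fun y : LaurentSeries ℚ => y.coeff (-1)) h
  simp only [HahnSeries.coeff_add, HahnSeries.coeff_zero, HahnSeries.C_apply] at h1
  rw [HahnSeries.leadingCoeff_eq, ho] at hl
  rw [hl, HahnSeries.coeff_single_of_ne (by norm_num)] at h1
  norm_num at h1

theorem x_quad_ne (x : LaurentSeries ℚ) (ho : x.order = -1) (hl : x.leadingCoeff = 1) (a b : ℚ) :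
    x * x + HahnSeries.C a * x + HahnSeries.C b ≠ 0 := by
  intro h
  have h1 := congrArg (fun y : LaurentSeries ℚ => y.coeff (x.order + x.order)) h
  simp only [HahnSeries.coeff_add, HahnSeries.coeff_zero, HahnSeries.coeff_mul_order_add_order,
    HahnSeries.C_mul_eq_smul, HahnSeries.coeff_smul] at h1
  rw [hl, ho, HahnSeries.C_apply, HahnSeries.coeff_single_of_ne (by norm_num),
    HahnSeries.coeff_eq_zero_of_lt_order (by rw [ho]; norm_num)] at h1
  norm_num at h1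

/-! ### the two identities -/

theorem theta_x3_Q :
    thetaS ℚ (xK ℚ line3) ^ 6 = xK ℚ line3 ^ 3 * (xK ℚ line3 + 27) ^ 4 * S28.dS ℚ := by
  have hrel := xK_rel ℚ line3 (Or.inr rfl)
  have e1 : line3.Bp = (Polynomial.X + 27) * (Polynomial.X + 243) ^ 3 := rfl
  have e2 : line3.Ap = Polynomial.X ^ 3 := rfl
  rw [e1, e2] at hrel
  simp only [map_mul, map_pow, map_add, Polynomial.aeval_X, map_ofNat] at hrel
  have hth := congrArg (thetaS ℚ) hrel
  simp only [thetaS_mul, thetaS_pow, thetaS_add, thetaS_ofNat 27, thetaS_ofNat 243,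
    add_zero] at hth
  have ho := order_xK ℚ line3
  have hl := leadingCoeff_xK ℚ line3
  refine x3_abs (xK ℚ line3) (jqModC ℚ) (S28.dS ℚ) _ (thetaS ℚ (jqModC ℚ)) hrel ?_ (theta_j ℚ) ?_ ?_
  · norm_num at hth ⊢
    exact hth
  · have := x_lin_ne _ ho hl 243
    rwa [map_ofNat] at this
  · have := x_quad_ne _ ho hl (-486) (-19683)
    rwa [map_neg, map_neg, map_ofNat, map_ofNat] at this

theorem theta_x2_Q :
    thetaS ℚ (xK ℚ line2) ^ 6 = xK ℚ line2 ^ 4 * (xK ℚ line2 + 64) ^ 3 * S28.dS ℚ := by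
  have hrel := xK_rel ℚ line2 (Or.inl rfl)
  have e1 : line2.Bp = (Polynomial.X + 256) ^ 3 := rfl
  have e2 : line2.Ap = Polynomial.X ^ 2 := rfl
  rw [e1, e2] at hrel
  simp only [map_pow, map_add, Polynomial.aeval_X, map_ofNat] at hrel
  have hth := congrArg (thetaS ℚ) hrel
  simp only [thetaS_mul, thetaS_pow, thetaS_add, thetaS_ofNat 256, add_zero] at hth
  have ho := order_xK ℚ line2
  have hl := leadingCoeff_xK ℚ line2
  refine x2_abs (xK ℚ line2) (jqModC ℚ) (S28.dS ℚ) _ (thetaS ℚ (jqModC ℚ)) hrel ?_ (theta_j ℚ) ?_ ?_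
  · norm_num at hth ⊢
    exact hth
  · have := x_lin_ne _ ho hl 256
    rwa [map_ofNat] at this
  · have := x_lin_ne _ ho hl (-512)
    rwa [map_neg, map_ofNat] at this

theorem theta_x3_Z :
    thetaS ℤ (xZ line3) ^ 6 = xZ line3 ^ 3 * (xZ line3 + 27) ^ 4 * S28.dS ℤ := by
  have hinj : Function.Injective (Int.castRingHom ℚ) := Int.cast_injective
  apply S28.coeffMap_injective hinj
  rw [map_pow, coeffMap_thetaS, map_mul, map_mul, map_pow, map_pow, map_add, S28.coeffMap_dS,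
    map_ofNat]
  exact theta_x3_Q

theorem theta_x2_Z :
    thetaS ℤ (xZ line2) ^ 6 = xZ line2 ^ 4 * (xZ line2 + 64) ^ 3 * S28.dS ℤ := by
  have hinj : Function.Injective (Int.castRingHom ℚ) := Int.cast_injective
  apply S28.coeffMap_injective hinj
  rw [map_pow, coeffMap_thetaS, map_mul, map_mul, map_pow, map_pow, map_add, S28.coeffMap_dS,
    map_ofNat]
  exact theta_x2_Q

/-- **TH-B** (level 3 Hauptmodul): `(θ x₃)⁶ = x₃³ (x₃ + 27)⁴ Δ`. -/
theorem theta_x3 (A : Type) [CommRing A] :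
    thetaS A (xK A line3) ^ 6 = xK A line3 ^ 3 * (xK A line3 + 27) ^ 4 * S28.dS A := by
  have h := congrArg (coeffMap (Int.castRingHom A)) theta_x3_Z
  rw [map_pow, coeffMap_thetaS, map_mul, map_mul, map_pow, map_pow, map_add, S28.coeffMap_dS,
    map_ofNat] at h
  exact h

/-- **TH-B** (level 2 Hauptmodul): `(θ x₂)⁶ = x₂⁴ (x₂ + 64)³ Δ`. -/
theorem theta_x2 (A : Type) [CommRing A] :
    thetaS A (xK A line2) ^ 6 = xK A line2 ^ 4 * (xK A line2 + 64) ^ 3 * S28.dS A := by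
  have h := congrArg (coeffMap (Int.castRingHom A)) theta_x2_Z
  rw [map_pow, coeffMap_thetaS, map_mul, map_mul, map_pow, map_pow, map_add, S28.coeffMap_dS,
    map_ofNat] at h
  exact h

end Fermat.Agent.S36.TH
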