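import Fermat.Agent.ES.SimpleZeros

set_option autoImplicit false

/-!
# S36 / TH / DExp : the `q`-expansion of `D F = (2πi)⁻¹ F'` is `θ` of the `q`-expansion of `F`   (task TH-DExp; Mathlib + `ES/SimpleZeros.lean`)

`F : ℍ → ℂ` periodic, holomorphic, bounded at `i∞`;  `c = cuspFunction 1 F` (differentiable on the unit ball: `differentiableOn_cuspFunction_ball`, analytic at `0`: `analyticAt_cuspFunction_zero`).
`ES.sz_D_eq hper hF hb z : D F z = 𝕢 1 z * deriv c (𝕢 1 z)`,  `ES.sz_D_isZeroAtImInfty`.

## Sketches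
* `periodic_D`: for `0 < w.im`: `ofComplex_apply_of_im_pos`, `normalizedDerivOfComplex`, and `deriv (F ∘ ofComplex) (w + 1) = deriv (F ∘ ofComplex) w` because `F ∘ ofComplex` is periodic
  (`deriv_comp_add_const` / `funext` of `hper`).  For `w.im ≤ 0` both `ofComplex (w + 1)` and `ofComplex w` are the junk value (`ofComplex_apply_of_im_nonpos`).
* `mdiff_D := normalizedDerivOfComplex_mdifferentiable hF`;  `bdd_D`: `(sz_D_isZeroAtImInfty ..).isBoundedAtImInfty`.
* `qExpansion_D_coeff`.  ROUTE 1 (`qExpansion_coeff_unique` : `(∀ τ, HasSum (fun m => c m • 𝕢 1 τ ^ m) (f τ)) → c m = (qExpansion 1 f).coeff m`): `c` has the power series `∑ a_m q^m` on the ball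
  (`hasFPowerSeriesOnBall_cuspFunction` / `hasSum_qExpansion_of_norm_lt`), so `deriv c q = ∑ (m+1) a_{m+1} q^m` (`HasFPowerSeriesOnBall.fderiv`/`derivSeries`, or
  `hasDerivAt_tsum`-type lemmas, or Cauchy estimates), multiply by `q`.
  ROUTE 2 (`qExpansion_coeff f m : (qExpansion h f).coeff m = (m !)⁻¹ * iteratedDeriv m (cuspFunction h f) 0`): `cuspFunction 1 (D F) =ᶠ[𝓝 0] fun q => q * deriv c q`
  (for `q ≠ 0`, `‖q‖ < 1`: `Function.Periodic.cuspFunction_eq_of_nonzero`, `qParam_right_inv`, `sz_D_eq`; at `0`: `cuspFunction_apply_zero` of a function which is zero at `i∞`);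
  `Filter.EventuallyEq.iteratedDeriv_eq`; Leibniz `iteratedDeriv m (id * g) 0 = m * iteratedDeriv (m - 1) g 0` (induction, `g = deriv c` analytic at `0`), `iteratedDeriv_succ'`.
  ROUTE 3 (`qExpansion_coeff_eq_intervalIntegral`): integrate by parts over a horizontal segment; the boundary terms cancel by periodicity.
-/

open UpperHalfPlane ModularForm
open scoped Manifold Topology
open Derivative Filter

noncomputable section

namespace Fermat.Agent.S36.TH

theorem periodic_D {F : ℍ → ℂ} (hper : Function.Periodic (F ∘ ofComplex) 1) :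
    Function.Periodic (D F ∘ ofComplex) 1 := by
  intro w
  by_cases hw : 0 < w.im
  · have hw' : 0 < (w + 1).im := by simpa using hw
    simp only [Function.comp_apply, ofComplex_apply_of_im_pos hw, ofComplex_apply_of_im_pos hw',
      normalizedDerivOfComplex]
    congr 1
    have h1 : (fun x => (F ∘ ofComplex) (x + 1)) = F ∘ ofComplex := funext hper
    have h2 := deriv_comp_add_const (F ∘ ofComplex) 1 w
    rw [h1] at h2
    exact h2.symm
  · have hw0 : w.im ≤ 0 := not_lt.1 hw
    have hw' : (w + 1).im ≤ 0 := by simpa using hw0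
    simp only [Function.comp_apply, ofComplex_apply_of_im_nonpos hw',
      ofComplex_apply_of_im_nonpos hw0]

theorem bdd_D {F : ℍ → ℂ} (hper : Function.Periodic (F ∘ ofComplex) 1) (hF : MDiff F)
    (hb : IsBoundedAtImInfty F) : IsBoundedAtImInfty (D F) :=
  (Fermat.Agent.ES.sz_D_isZeroAtImInfty hper hF hb).isBoundedAtImInfty

theorem analyticAt_cuspFunction_D {F : ℍ → ℂ} (hper : Function.Periodic (F ∘ ofComplex) 1)
    (hF : MDiff F) (hb : IsBoundedAtImInfty F) : AnalyticAt ℂ (cuspFunction 1 (D F)) 0 :=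
  analyticAt_cuspFunction_zero one_pos (periodic_D hper)
    (normalizedDerivOfComplex_mdifferentiable hF) (bdd_D hper hF hb)

theorem dexp_cuspFunction_D {F : ℍ → ℂ} (hper : Function.Periodic (F ∘ ofComplex) 1)
    (hF : MDiff F) (hb : IsBoundedAtImInfty F) :
    cuspFunction 1 (D F) =ᶠ[𝓝 0] fun q => q * deriv (cuspFunction 1 F) q := by
  filter_upwards [Metric.ball_mem_nhds (0 : ℂ) one_pos] with q hq
  have hq1 : ‖q‖ < 1 := by simpa using hq
  by_cases hq0 : q = 0
  · subst hq0
    rw [(Fermat.Agent.ES.sz_D_isZeroAtImInfty hper hF hb).cuspFunction_apply_zero one_pos,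
      zero_mul]
  · have h1 := Function.Periodic.im_invQParam_pos_of_norm_lt_one one_pos hq1 hq0
    let τ : ℍ := ⟨Function.Periodic.invQParam 1 q, h1⟩
    have hτ : Function.Periodic.qParam 1 (τ : ℂ) = q :=
      Function.Periodic.qParam_right_inv one_ne_zero hq0
    have h2 := eq_cuspFunction τ one_ne_zero (periodic_D hper)
    have h3 := Fermat.Agent.ES.sz_D_eq hper hF hb τ
    rw [hτ] at h2 h3
    rw [h2, h3]

theorem qExpansion_D_coeff {F : ℍ → ℂ} (hper : Function.Periodic (F ∘ ofComplex) 1) (hF : MDiff F)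
    (hb : IsBoundedAtImInfty F) (n : ℕ) :
    (qExpansion 1 (D F)).coeff n = (n : ℂ) * (qExpansion 1 F).coeff n := by
  have han : AnalyticAt ℂ (cuspFunction 1 F) 0 := analyticAt_cuspFunction_zero one_pos hper hF hb
  rw [qExpansion_coeff, (dexp_cuspFunction_D hper hF hb).iteratedDeriv_eq n, qExpansion_coeff,
    iteratedDeriv_fun_mul (f := fun q : ℂ => q) contDiffAt_id han.deriv.contDiffAt]
  simp only [iteratedDeriv_fun_id_zero]
  cases n with
  | zero => simp
  | succ m =>
    rw [Finset.sum_eq_single 1]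
    · simp only [if_true, Nat.choose_one_right, mul_one, Nat.add_sub_cancel]
      rw [← iteratedDeriv_succ']
      ring
    · intro i _ hi
      rw [if_neg hi, mul_zero, zero_mul]
    · intro h
      exact absurd (Finset.mem_range.2 (by omega)) h

end Fermat.Agent.S36.TH
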