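import Fermat.Agent.S36.TH.JC

set_option autoImplicit false

/-!
# S36 / TH / J : `(θ j)⁶ = j⁴ (j - 1728)³ Δ` in `A((Q))` for every commutative ring `A`
-/

open ModularCurve

noncomputable section

namespace Fermat.Agent.S36.TH

theorem theta_j_Z :
    thetaS ℤ (jqModC ℤ) ^ 6 = jqModC ℤ ^ 4 * (jqModC ℤ - 1728) ^ 3 * S28.dS ℤ := by
  have hinj : Function.Injective (Int.castRingHom ℂ) := Int.cast_injective
  apply S28.coeffMap_injective hinj
  rw [map_pow, coeffMap_thetaS, map_mul, map_mul, map_pow, map_pow, map_sub, coeffMap_jqModC,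
    S28.coeffMap_dS, map_ofNat]
  exact theta_j_C

/-- **TH-A**: `(θ j)⁶ = j⁴ (j - 1728)³ Δ`. -/
theorem theta_j (A : Type) [CommRing A] :
    thetaS A (jqModC A) ^ 6 = jqModC A ^ 4 * (jqModC A - 1728) ^ 3 * S28.dS A := by
  have h := congrArg (coeffMap (Int.castRingHom A)) theta_j_Z
  rw [map_pow, coeffMap_thetaS, map_mul, map_mul, map_pow, map_pow, map_sub, coeffMap_jqModC,
    S28.coeffMap_dS, map_ofNat] at h
  exact h

end Fermat.Agent.S36.TH
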