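import Fermat.Agent.S36.TH.DExp

set_option autoImplicit false

/-!
# S36 / TH / Ram : `3 Δ θE₄ - E₄ θΔ = - E₆ Δ` and `E₄³ - E₆² = 1728 Δ` as identities of `q`-expansions   (task TH-Ram)

## Sketches
* `D_discriminant`: `Δ z = η z ^ 24` (`ModularForm.discriminant`), `logDeriv_eta_eq_E2 z : logDeriv η z = (π I / 12) * E2 z`.  On `ℍ` the function `Δ ∘ ofComplex` agrees near `z` with `fun w => η w ^ 24`
  (`Filter.EventuallyEq.deriv_eq`, `isOpen_upperHalfPlaneSet.mem_nhds`, `ofComplex_apply_of_im_pos`); `deriv (η ^ 24) = 24 η ^ 23 η'` (`differentiableAt_eta_of_mem_upperHalfPlaneSet`), `η' = logDeriv η * η` (`eta_ne_zero`).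
  `(2 π I)⁻¹ * 24 * (π I / 12) = 1`.
* `ram_fun`: `ES.sz_ramanujan_E₄ z : serreDerivative 4 E₄ z = -(1/3) * E₆ z`, `serreDerivative_apply : serreDerivative k F z = D F z - k * 12⁻¹ * E2 z * F z`; `D_discriminant`; `linear_combination`.
* `ram_series`: apply `qExpansion 1` to the identity of functions `3 • (Δ * D E₄) - E₄ * D Δ = - (E₆ * Δ)` : `qExpansion_mul`, `qExpansion_sub`, `qExpansion_smul`, `qExpansion_neg` (function versions in
  `Mathlib/NumberTheory/ModularForms/QExpansion.lean`; they ask `AnalyticAt ℂ (cuspFunction 1 _) 0`: `ModularFormClass.analyticAt_cuspFunction_zero`, `analyticAt_cuspFunction_D`, and for products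
  `cuspFunction_mul` + `AnalyticAt.mul`), `qExpansion_D_coeff` (`PowerSeries.ext`), with `ES.sz_periodic`, `ES.sz_bdd`, `.holo'`  (`Δ = CuspForm.discriminant`, `CuspForm.coe_discriminant`; a cusp form is bounded).
* `e4e6_series`: the same with `discriminant_eq_E₄_cube_sub_E₆_sq`; or `ModularForm.qExpansion_mul/_pow/_sub` for forms of weight 12.
-/

open UpperHalfPlane ModularForm EisensteinSeries
open scoped MatrixGroups Manifold Topology
open Derivative Filter

noncomputable section

namespace Fermat.Agent.S36.TH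

/-- `θ` on power series. -/
def thetaP (f : PowerSeries ℂ) : PowerSeries ℂ := PowerSeries.mk fun n => (n : ℂ) * PowerSeries.coeff n f

theorem D_discriminant (z : ℍ) : D discriminant z = E2 z * discriminant z := by
  have hz : (z : ℂ) ∈ upperHalfPlaneSet := z.im_pos
  have heq : (discriminant ∘ ofComplex) =ᶠ[𝓝 (z : ℂ)] fun w => eta w ^ 24 := by
    filter_upwards [isOpen_upperHalfPlaneSet.mem_nhds z.im_pos] with w hw
    simp [discriminant, ofComplex_apply_of_im_pos hw]
  have hd := differentiableAt_eta_of_mem_upperHalfPlaneSet hz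
  have h1 : deriv (fun w => eta w ^ 24) z = 24 * eta z ^ 23 * deriv eta z := by
    have := (hd.hasDerivAt.pow 24).deriv
    have e : (fun w => eta w ^ 24) = eta ^ 24 := rfl
    rw [e, this]
    norm_num
  have h2 := logDeriv_eta_eq_E2 z
  rw [logDeriv_apply, div_eq_iff (eta_ne_zero hz)] at h2
  rw [normalizedDerivOfComplex, heq.deriv_eq, h1, h2, discriminant]
  have hpi := Fermat.Agent.ES.sz_two_pi_I_ne_zero
  field_simp
  ring

theorem ram_fun (z : ℍ) :
    3 * discriminant z * D E₄ z - E₄ z * D discriminant z = - (E₆ z * discriminant z) := by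
  have h := Fermat.Agent.ES.sz_ramanujan_E₄ z
  rw [serreDerivative_apply] at h
  rw [D_discriminant]
  linear_combination (3 * discriminant z) * h

theorem ram_an_mul {f g : ℍ → ℂ} (hf : AnalyticAt ℂ (cuspFunction 1 f) 0)
    (hg : AnalyticAt ℂ (cuspFunction 1 g) 0) : AnalyticAt ℂ (cuspFunction 1 (f * g)) 0 := by
  rw [cuspFunction_mul hf.continuousAt hg.continuousAt]; exact hf.mul hg

theorem ram_an_smul {f : ℍ → ℂ} (hf : AnalyticAt ℂ (cuspFunction 1 f) 0) (a : ℂ) :
    AnalyticAt ℂ (cuspFunction 1 (a • f)) 0 := by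
  rw [cuspFunction_smul hf.continuousAt]; exact hf.const_smul

theorem ram_an_disc : AnalyticAt ℂ (cuspFunction 1 discriminant) 0 :=
  ModularFormClass.analyticAt_cuspFunction_zero CuspForm.discriminant one_pos
    one_mem_strictPeriods_SL

theorem ram_an_form {k : ℤ} (f : ModularForm 𝒮ℒ k) : AnalyticAt ℂ (cuspFunction 1 f) 0 :=
  ModularFormClass.analyticAt_cuspFunction_zero f one_pos one_mem_strictPeriods_SL

theorem ram_per_disc : Function.Periodic (discriminant ∘ ofComplex) 1 :=
  SlashInvariantFormClass.periodic_comp_ofComplex CuspForm.discriminant one_mem_strictPeriods_SL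

theorem ram_bdd_disc : IsBoundedAtImInfty discriminant :=
  ModularFormClass.bdd_at_infty CuspForm.discriminant

theorem ram_thetaP {F : ℍ → ℂ} (hper : Function.Periodic (F ∘ ofComplex) 1) (hF : MDiff F)
    (hb : IsBoundedAtImInfty F) : thetaP (qExpansion 1 F) = qExpansion 1 (D F) := by
  ext n
  rw [thetaP, PowerSeries.coeff_mk, qExpansion_D_coeff hper hF hb]

theorem ram_smul_eq (a : ℂ) (P : PowerSeries ℂ) : a • P = PowerSeries.C a * P := by
  ext n
  rw [PowerSeries.coeff_C_mul, PowerSeries.coeff_smul, smul_eq_mul]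

theorem ram_series :
    3 * qExpansion 1 discriminant * thetaP (qExpansion 1 E₄) -
      qExpansion 1 E₄ * thetaP (qExpansion 1 discriminant) =
    - (qExpansion 1 E₆ * qExpansion 1 discriminant) := by
  have a4 := ram_an_form E₄
  have a6 := ram_an_form E₆
  have aΔ := ram_an_disc
  have aD4 := analyticAt_cuspFunction_D (Fermat.Agent.ES.sz_periodic E₄) E₄.holo'
    (Fermat.Agent.ES.sz_bdd E₄)
  have aDΔ := analyticAt_cuspFunction_D ram_per_disc CuspForm.discriminant.holo' ram_bdd_disc
  have hfun : (3 : ℂ) • (discriminant * D E₄) - (E₄ : ℍ → ℂ) * D discriminant =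
      -((E₆ : ℍ → ℂ) * discriminant) := by
    funext z
    have := ram_fun z
    simp only [Pi.sub_apply, Pi.smul_apply, Pi.mul_apply, Pi.neg_apply, smul_eq_mul]
    linear_combination this
  have h := congrArg (qExpansion 1) hfun
  rw [qExpansion_sub (ram_an_smul (ram_an_mul aΔ aD4) 3) (ram_an_mul a4 aDΔ),
    qExpansion_smul (ram_an_mul aΔ aD4), qExpansion_mul aΔ aD4, qExpansion_mul a4 aDΔ,
    qExpansion_neg (ram_an_mul a6 aΔ), qExpansion_mul a6 aΔ, ram_smul_eq, map_ofNat] at h
  rw [ram_thetaP (Fermat.Agent.ES.sz_periodic E₄) E₄.holo' (Fermat.Agent.ES.sz_bdd E₄),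
    ram_thetaP ram_per_disc CuspForm.discriminant.holo' ram_bdd_disc, mul_assoc]
  exact h

theorem e4e6_series :
    qExpansion 1 E₄ ^ 3 - qExpansion 1 E₆ ^ 2 = 1728 * qExpansion 1 discriminant := by
  have a4 := ram_an_form E₄
  have a6 := ram_an_form E₆
  have aΔ := ram_an_disc
  have hfun : (E₄ : ℍ → ℂ) * ((E₄ : ℍ → ℂ) * (E₄ : ℍ → ℂ)) - (E₆ : ℍ → ℂ) * (E₆ : ℍ → ℂ) =
      (1728 : ℂ) • discriminant := by
    funext z
    have := discriminant_eq_E₄_cube_sub_E₆_sq z
    simp only [Pi.sub_apply, Pi.smul_apply, Pi.mul_apply, smul_eq_mul]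
    rw [this]
    ring
  have h := congrArg (qExpansion 1) hfun
  rw [qExpansion_sub (ram_an_mul a4 (ram_an_mul a4 a4)) (ram_an_mul a6 a6),
    qExpansion_mul a4 (ram_an_mul a4 a4), qExpansion_mul a4 a4, qExpansion_mul a6 a6,
    qExpansion_smul aΔ, ram_smul_eq, map_ofNat] at h
  rw [← h]
  ring

end Fermat.Agent.S36.TH
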