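import Fermat.Agent.S36.TH.Theta
import Fermat.Agent.S36.TH.Ram
import Fermat.Agent.S28.FormalHecke
import Fermat.Agent.S28.Series

set_option autoImplicit false

/-!
# S36 / TH / JC : `(θ j)⁶ = j⁴ (j - 1728)³ Δ` in `ℂ((Q))`
-/

open UpperHalfPlane ModularForm EisensteinSeries ModularCurve

noncomputable section

namespace Fermat.Agent.S36.TH

/-- the algebra behind `(θ j)⁶ = j⁴ (j - 1728)³ Δ`. -/
theorem jc_abs {L : Type*} [CommRing L] (j d dinv e4 e6 tj te4 td : L) (h1 : j * d = e4 ^ 3)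
    (h2 : tj * d + j * td = 3 * e4 ^ 2 * te4) (h3 : 3 * d * te4 - e4 * td = -(e6 * d))
    (h4 : e4 ^ 3 - e6 ^ 2 = 1728 * d) (h5 : d * dinv = 1) :
    tj ^ 6 = j ^ 4 * (j - 1728) ^ 3 * d := by
  have a1 : tj * d ^ 2 = -(e4 ^ 2 * e6 * d) := by
    linear_combination d * h2 - td * h1 + e4 ^ 2 * h3
  have a2 : tj * d = -(e4 ^ 2 * e6) := by
    linear_combination dinv * a1 - (tj * d + e4 ^ 2 * e6) * h5
  have a3 : (j - 1728) * d = e6 ^ 2 := by linear_combination h1 + h4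
  have a4 : tj ^ 6 * d ^ 6 = (j ^ 4 * (j - 1728) ^ 3 * d) * d ^ 6 := by
    have b1 : tj ^ 6 * d ^ 6 = (tj * d) ^ 6 := by ring
    have b2 : (j ^ 4 * (j - 1728) ^ 3 * d) * d ^ 6 = (j * d) ^ 4 * ((j - 1728) * d) ^ 3 := by ring
    rw [b1, b2, a2, h1, a3]
    ring
  have a5 : d ^ 6 * dinv ^ 6 = 1 := by rw [← mul_pow, h5, one_pow]
  calc tj ^ 6 = tj ^ 6 * d ^ 6 * dinv ^ 6 := by rw [mul_assoc, a5, mul_one]
    _ = (j ^ 4 * (j - 1728) ^ 3 * d) * d ^ 6 * dinv ^ 6 := by rw [a4]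
    _ = j ^ 4 * (j - 1728) ^ 3 * d := by rw [mul_assoc, a5, mul_one]

theorem jc_eS : S28.eS ℂ = HahnSeries.ofPowerSeries ℤ ℂ (qExpansion 1 E₄) := by
  rw [S28.eS, ← S28.map_E4Q, S28.E4Q]
  congr 1

theorem jc_dS : S28.dS ℂ = HahnSeries.ofPowerSeries ℤ ℂ (qExpansion 1 discriminant) := by
  rw [S28.dS, ← S28.map_DeltaQ, S28.DeltaQ, map_mul, map_mul, PowerSeries.map_X,
    HahnSeries.ofPowerSeries_X]
  congr 2

theorem jc_theta (f : PowerSeries ℂ) :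
    thetaS ℂ (HahnSeries.ofPowerSeries ℤ ℂ f) = HahnSeries.ofPowerSeries ℤ ℂ (thetaP f) :=
  thetaS_ofPowerSeries f

theorem theta_j_C :
    thetaS ℂ (jqModC ℂ) ^ 6 = jqModC ℂ ^ 4 * (jqModC ℂ - 1728) ^ 3 * S28.dS ℂ := by
  refine jc_abs (jqModC ℂ) (S28.dS ℂ) (S28.dInv ℂ) (S28.eS ℂ)
    (HahnSeries.ofPowerSeries ℤ ℂ (qExpansion 1 E₆)) _ (thetaS ℂ (S28.eS ℂ))
    (thetaS ℂ (S28.dS ℂ)) (S28.jq_mul_dS ℂ) ?_ ?_ ?_ (S28.dS_mul_dInv ℂ)
  · have h := congrArg (thetaS ℂ) (S28.jq_mul_dS ℂ)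
    rw [thetaS_mul, thetaS_pow] at h
    rw [h]
    norm_num
  · have h := congrArg (HahnSeries.ofPowerSeries ℤ ℂ) ram_series
    simp only [map_sub, map_mul, map_neg, map_ofNat] at h
    rw [jc_eS, jc_dS, jc_theta, jc_theta]
    exact h
  · have h := congrArg (HahnSeries.ofPowerSeries ℤ ℂ) e4e6_series
    simp only [map_sub, map_mul, map_pow, map_ofNat] at h
    rw [jc_eS, jc_dS]
    exact h

end Fermat.Agent.S36.TH
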