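import Fermat.Agent.S36.V3.Cyclo

set_option autoImplicit false

/-!
# S36 / TH / Theta : the derivation `θ = Q d/dQ` on Laurent series   (task TH-Theta; purely formal, Mathlib + `HahnSeries`)

`thetaS A x` has coefficients `n * x_n`  (`= V3.Cyclo.mulCoeff (fun n => (n : A)) x`, so that `V3.sub_twist_eq_theta` speaks about it).

## Sketches
* everything except `thetaS_mul` : `ext n`, `thetaS_coeff`, `HahnSeries.coeff_add`, `HahnSeries.coeff_single`, `HahnSeries.C_apply`, `coeffMap_coeff`, `map_mul`, `map_intCast`, `ring`.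
* `thetaS_mul` (Leibniz): `ext n`; `HahnSeries.coeff_mul` on the three products.  The three sums run over `addAntidiagonal x.isPWO_support y.isPWO_support n` and the
  analogous sets for `(θ x, y)`, `(x, θ y)`.  Enlarge the last two to the first one with `HahnSeries.coeff_mul_left'` / `coeff_mul_right'`-style lemmas
  (`HahnSeries.coeff_mul_left' (hs : s.IsPWO) (hxs : x.support ⊆ s)`, the support of `θ x` is contained in that of `x`), or use `Finset.sum_subset`.
  On the antidiagonal `i + j = n` (`Finset.mem_addAntidiagonal`): `(n : A) * (x_i * y_j) = (i * x_i) * y_j + x_i * (j * y_j)` (`push_cast`, `ring`).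
* `thetaS_pow`: induction with `thetaS_mul`.   * `thetaS_aeval`: `Polynomial.induction_on` (`aeval_C` is `algebraMap ℤ _ = Int.cast`, `thetaS_intCast`), or `Polynomial.induction_on'`.
* `thetaS_ofPowerSeries`: `ext n`; for `n < 0` both sides vanish (`ModularCurve.ofPowerSeries_coeff_of_neg`), for `n = (m : ℕ)` use `HahnSeries.ofPowerSeries_apply_coeff`, `PowerSeries.coeff_mk`.
-/

noncomputable section

namespace Fermat.Agent.S36.TH

open ModularCurve Fermat.Agent.S36.V3

/-- `θ = Q d/dQ`. -/
def thetaS (A : Type) [CommRing A] (x : LaurentSeries A) : LaurentSeries A :=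
  Cyclo.mulCoeff (fun n : ℤ => (n : A)) x

variable {A B : Type} [CommRing A] [CommRing B]

theorem thetaS_coeff (x : LaurentSeries A) (n : ℤ) : (thetaS A x).coeff n = (n : A) * x.coeff n := rfl

theorem thetaS_zero : thetaS A 0 = 0 := by
  ext n; rw [thetaS_coeff, HahnSeries.coeff_zero, mul_zero]

theorem thetaS_add (x y : LaurentSeries A) : thetaS A (x + y) = thetaS A x + thetaS A y := by
  ext n; rw [HahnSeries.coeff_add, thetaS_coeff, thetaS_coeff, thetaS_coeff, HahnSeries.coeff_add, mul_add]

theorem thetaS_neg (x : LaurentSeries A) : thetaS A (-x) = - thetaS A x := by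
  ext n; rw [HahnSeries.coeff_neg, thetaS_coeff, thetaS_coeff, HahnSeries.coeff_neg, mul_neg]

theorem thetaS_sub (x y : LaurentSeries A) : thetaS A (x - y) = thetaS A x - thetaS A y := by
  rw [sub_eq_add_neg, thetaS_add, thetaS_neg, ← sub_eq_add_neg]

theorem thetaS_single (k : ℤ) (a : A) :
    thetaS A (HahnSeries.single k a) = HahnSeries.single k ((k : A) * a) := by
  ext n
  rw [thetaS_coeff]
  by_cases h : n = k
  · subst h; rw [HahnSeries.coeff_single_same, HahnSeries.coeff_single_same]
  · rw [HahnSeries.coeff_single_of_ne h, HahnSeries.coeff_single_of_ne h, mul_zero]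

theorem thetaS_C (a : A) : thetaS A (HahnSeries.C a) = 0 := by
  rw [HahnSeries.C_apply, thetaS_single, Int.cast_zero, zero_mul, HahnSeries.single_eq_zero]

theorem thetaS_one : thetaS A 1 = 0 := by
  rw [← map_one (HahnSeries.C : A →+* LaurentSeries A), thetaS_C]

theorem thetaS_intCast (m : ℤ) : thetaS A (m : LaurentSeries A) = 0 := by
  rw [← map_intCast (HahnSeries.C : A →+* LaurentSeries A), thetaS_C]

theorem thetaS_natCast (m : ℕ) : thetaS A (m : LaurentSeries A) = 0 := by
  rw [← map_natCast (HahnSeries.C : A →+* LaurentSeries A), thetaS_C]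

theorem thetaS_ofNat (m : ℕ) [m.AtLeastTwo] : thetaS A (OfNat.ofNat m : LaurentSeries A) = 0 := by
  rw [← Nat.cast_ofNat (R := LaurentSeries A), thetaS_natCast]

/-- Leibniz. -/
theorem thetaS_mul (x y : LaurentSeries A) :
    thetaS A (x * y) = thetaS A x * y + x * thetaS A y := by
  have hsup : ∀ z : LaurentSeries A, (thetaS A z).support ⊆ z.support := by
    intro z n hn
    rw [HahnSeries.mem_support] at hn ⊢
    intro h
    exact hn (by rw [thetaS_coeff, h, mul_zero])
  ext n
  rw [HahnSeries.coeff_add, thetaS_coeff, HahnSeries.coeff_mul,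
    HahnSeries.coeff_mul_left' x.isPWO_support (hsup x),
    HahnSeries.coeff_mul_right' y.isPWO_support (hsup y), Finset.mul_sum,
    ← Finset.sum_add_distrib]
  refine Finset.sum_congr rfl fun ij hij => ?_
  have h := (Finset.mem_antidiagonal.1 hij).2.2
  rw [thetaS_coeff, thetaS_coeff, ← h]
  push_cast
  ring

theorem thetaS_pow (x : LaurentSeries A) (k : ℕ) :
    thetaS A (x ^ k) = (k : LaurentSeries A) * x ^ (k - 1) * thetaS A x := by
  induction k with
  | zero => simp [thetaS_one]
  | succ k ih =>
    rw [pow_succ, thetaS_mul, ih]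
    cases k with
    | zero => simp
    | succ m =>
      simp only [Nat.add_sub_cancel]
      push_cast
      ring

theorem coeffMap_thetaS (f : A →+* B) (x : LaurentSeries A) :
    coeffMap f (thetaS A x) = thetaS B (coeffMap f x) := by
  ext n
  rw [coeffMap_coeff, thetaS_coeff, thetaS_coeff, coeffMap_coeff, map_mul, map_intCast]

theorem thetaS_ofPowerSeries (f : PowerSeries A) :
    thetaS A (HahnSeries.ofPowerSeries ℤ A f) =
      HahnSeries.ofPowerSeries ℤ A (PowerSeries.mk fun n => (n : A) * PowerSeries.coeff n f) := by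
  ext n
  rw [thetaS_coeff]
  rcases lt_or_ge n 0 with hn | hn
  · rw [ofPowerSeries_coeff_of_neg _ hn, ofPowerSeries_coeff_of_neg _ hn, mul_zero]
  · obtain ⟨m, rfl⟩ := Int.eq_ofNat_of_zero_le hn
    have e1 := HahnSeries.ofPowerSeries_apply_coeff (Γ := ℤ) f m
    have e2 := HahnSeries.ofPowerSeries_apply_coeff (Γ := ℤ)
      (PowerSeries.mk fun n => (n : A) * PowerSeries.coeff n f) m
    rw [PowerSeries.coeff_mk] at e2
    rw [e1, e2, Int.cast_natCast]

theorem thetaS_aeval (x : LaurentSeries A) (P : Polynomial ℤ) :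
    thetaS A (Polynomial.aeval x P) = Polynomial.aeval x (Polynomial.derivative P) * thetaS A x := by
  induction P using Polynomial.induction_on' with
  | add p q hp hq =>
    rw [map_add, thetaS_add, hp, hq, Polynomial.derivative_add, map_add, add_mul]
  | monomial k a =>
    rw [Polynomial.aeval_monomial, Polynomial.derivative_monomial, Polynomial.aeval_monomial,
      thetaS_mul, thetaS_pow]
    have e : thetaS A (algebraMap ℤ (LaurentSeries A) a) = 0 := by
      rw [eq_intCast, thetaS_intCast]
    rw [e, zero_mul, zero_add, map_mul, map_natCast]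
    ring

end Fermat.Agent.S36.TH
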